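import Fermat.Agent.S14.Spec

/-!
# S14 / Thaine block, helper71: elementary facts on a degree-one prime `Q` of `𝓞 K`,
`K = ℚ(ζ_p)`, of norm `ℓ ≠ p`: integers represent all residues, the conjugates `σ Q` are
pairwise distinct and exhaust the primes above `ℓ`.
-/

set_option autoImplicit false

open NumberField
open scoped nonZeroDivisors Pointwise

namespace Fermat.Agent.S14.H71

open Fermat.Agent.S14.Spec

section general

variable {R : Type*} [CommRing R] [IsDedekindDomain R] [Module.Free ℤ R]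

/-- Modulo an ideal of prime norm every element is congruent to a rational integer. -/
theorem exists_int_sub_mem (I : Ideal R) (h : (Ideal.absNorm I).Prime) (x : R) :
    ∃ n : ℤ, x - (n : R) ∈ I := by
  have : Fact (Ideal.absNorm I).Prime := ⟨h⟩
  have hcard : Nat.card (R ⧸ I) = Ideal.absNorm I := by
    rw [Ideal.absNorm_apply, Submodule.cardQuot_apply]
  have hone : (1 : R ⧸ I) ≠ 0 := by
    intro h0
    have h1 : (1 : R) ∈ I := by
      rw [← Ideal.Quotient.eq_zero_iff_mem]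
      simpa using h0
    have : I = ⊤ := (Ideal.eq_top_iff_one I).mpr h1
    rw [← Ideal.absNorm_eq_one_iff] at this
    rw [this] at h
    exact Nat.not_prime_one h
  have htop := zmultiples_eq_top_of_prime_card hcard hone
  have hx : Ideal.Quotient.mk I x ∈ AddSubgroup.zmultiples (1 : R ⧸ I) := by
    rw [htop]; trivial
  obtain ⟨n, hn⟩ := AddSubgroup.mem_zmultiples_iff.mp hx
  refine ⟨n, ?_⟩
  rw [← Ideal.Quotient.eq_zero_iff_mem, map_sub, ← hn]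
  simp

end general

/-- A prime ideal containing the rational prime `ℓ` lies over `(ℓ)`. -/
theorem liesOver_of_natCast_mem {R : Type*} [CommRing R] (𝔮 : Ideal R) [h𝔮 : 𝔮.IsPrime]
    (ℓ : ℕ) (hℓ : ℓ.Prime) (hmem : (ℓ : R) ∈ 𝔮) : 𝔮.LiesOver (Ideal.span {(ℓ : ℤ)}) := by
  rw [Ideal.liesOver_iff, Ideal.under_def]
  have hmax : (Ideal.span {(ℓ : ℤ)}).IsMaximal :=
    @Int.ideal_span_isMaximal_of_prime ℓ ⟨hℓ⟩
  refine hmax.eq_of_le ?_ ?_
  · exact (Ideal.IsPrime.comap (algebraMap ℤ R)).ne_top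
  · rw [Ideal.span_singleton_le_iff_mem, Ideal.mem_comap]
    simpa using hmem

theorem coe_ringAut (K : Type) [Field K] [NumberField K] (σ : K ≃ₐ[ℚ] K) (x : 𝓞 K) :
    ((ringAut K σ x : 𝓞 K) : K) = σ (x : K) := by
  unfold ringAut
  exact algebraMap_galRestrict_apply ℤ σ x

theorem smul_eq_map_ringAut (K : Type) [Field K] [NumberField K] (σ : K ≃ₐ[ℚ] K)
    (I : Ideal (𝓞 K)) : σ • I = I.map (ringAut K σ : 𝓞 K →+* 𝓞 K) := by
  rw [Ideal.pointwise_smul_def]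
  congr 1
  refine RingHom.ext fun x => RingOfIntegers.ext ?_
  show ((σ • x : 𝓞 K) : K) = ((ringAut K σ x : 𝓞 K) : K)
  rw [coe_ringAut]
  rfl

theorem ringAut_mul (K : Type) [Field K] [NumberField K] (σ τ : K ≃ₐ[ℚ] K) (x : 𝓞 K) :
    ringAut K (σ * τ) x = ringAut K σ (ringAut K τ x) := by
  apply RingOfIntegers.ext
  rw [coe_ringAut, coe_ringAut, coe_ringAut]
  rfl

theorem ringAut_one (K : Type) [Field K] [NumberField K] (x : 𝓞 K) :
    ringAut K 1 x = x := by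
  apply RingOfIntegers.ext
  rw [coe_ringAut]
  rfl

theorem mem_map_ringAut_iff (K : Type) [Field K] [NumberField K] (σ : K ≃ₐ[ℚ] K)
    (I : Ideal (𝓞 K)) (x : 𝓞 K) :
    x ∈ I.map (ringAut K σ : 𝓞 K →+* 𝓞 K) ↔ ringAut K σ⁻¹ x ∈ I := by
  constructor
  · intro hx
    obtain ⟨y, hy, rfl⟩ := (Ideal.mem_map_iff_of_surjective (ringAut K σ : 𝓞 K →+* 𝓞 K)
      (ringAut K σ).surjective).mp hx
    have : ringAut K σ⁻¹ ((ringAut K σ : 𝓞 K →+* 𝓞 K) y) = y := by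
      show ringAut K σ⁻¹ (ringAut K σ y) = y
      rw [← ringAut_mul, inv_mul_cancel, ringAut_one]
    rwa [this]
  · intro hx
    have : x = (ringAut K σ : 𝓞 K →+* 𝓞 K) (ringAut K σ⁻¹ x) := by
      show x = ringAut K σ (ringAut K σ⁻¹ x)
      rw [← ringAut_mul, mul_inv_cancel, ringAut_one]
    rw [this]
    exact Ideal.mem_map_of_mem _ hx

section cyclo

variable (p : ℕ) [hp : Fact p.Prime]
variable (K : Type) [Field K] [NumberField K] [IsCyclotomicExtension {p} ℚ K]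

theorem natCast_mem_map (Q : Ideal (𝓞 K)) (ℓ : ℕ) (hℓ : (ℓ : 𝓞 K) ∈ Q) (σ : K ≃ₐ[ℚ] K) :
    (ℓ : 𝓞 K) ∈ Q.map (ringAut K σ : 𝓞 K →+* 𝓞 K) := by
  have := Ideal.mem_map_of_mem (ringAut K σ : 𝓞 K →+* 𝓞 K) hℓ
  simpa using this

include p in
theorem exists_map_eq (Q : Ideal (𝓞 K)) [Q.IsPrime] (ℓ : ℕ) (hℓ : ℓ.Prime)
    (hQ : (ℓ : 𝓞 K) ∈ Q) (𝔮 : Ideal (𝓞 K)) (h𝔮 : 𝔮.IsPrime) (hmem : (ℓ : 𝓞 K) ∈ 𝔮) :
    ∃ σ : K ≃ₐ[ℚ] K, 𝔮 = Q.map (ringAut K σ : 𝓞 K →+* 𝓞 K) := by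
  have : NeZero p := ⟨hp.out.ne_zero⟩
  have := IsCyclotomicExtension.isGalois {p} ℚ K
  have := liesOver_of_natCast_mem Q ℓ hℓ hQ
  have := liesOver_of_natCast_mem 𝔮 ℓ hℓ hmem
  obtain ⟨σ, hσ⟩ := Ideal.exists_smul_eq_of_isGaloisGroup (Ideal.span {(ℓ : ℤ)}) Q 𝔮 (K ≃ₐ[ℚ] K)
  exact ⟨σ, by rw [← hσ, smul_eq_map_ringAut]⟩

/-- `σ ζ = ζ ^ (galExp σ)`. -/
theorem galExp_spec (σ : K ≃ₐ[ℚ] K) :
    ringAut K σ (zetaInt p K) = zetaInt p K ^ galExp p K σ := by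
  have : NeZero p := ⟨hp.out.ne_zero⟩
  apply RingOfIntegers.ext
  rw [coe_ringAut]
  show σ (algebraMap (𝓞 K) K (zetaInt p K)) = algebraMap (𝓞 K) K (zetaInt p K ^ galExp p K σ)
  rw [map_pow]
  unfold zetaInt galExp JacobiSumStickelberger.cycloGalEquiv
  have h1 : algebraMap (𝓞 K) K (IsCyclotomicExtension.zeta_spec p ℚ K).toInteger =
      IsCyclotomicExtension.zeta p ℚ K :=
    IsPrimitiveRoot.coe_toInteger (IsCyclotomicExtension.zeta_spec p ℚ K)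
  rw [h1, IsCyclotomicExtension.autEquivPow_apply]
  exact ((IsCyclotomicExtension.zeta_spec p ℚ K).autToPow_spec ℚ σ).symm

end cyclo

end Fermat.Agent.S14.H71
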