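import Fermat.Agent.S14.Spec
import Fermat.Agent.S14.H71.PrimeFacts

/-!
# S14 / Thaine block, helper71: `galExp` as a character and injectivity of `σ ↦ σ Q`.
-/

set_option autoImplicit false

open NumberField
open scoped nonZeroDivisors Pointwise

namespace Fermat.Agent.S14.H71

open Fermat.Agent.S14.Spec

section cyclo

variable (p : ℕ) [hp : Fact p.Prime]
variable (K : Type) [Field K] [NumberField K] [IsCyclotomicExtension {p} ℚ K]

theorem galExp_cast (σ : K ≃ₐ[ℚ] K) :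
    haveI : NeZero p := ⟨hp.out.ne_zero⟩
    (galExp p K σ : ZMod p) = ((JacobiSumStickelberger.cycloGalEquiv p K σ : (ZMod p)ˣ) : ZMod p) := by
  haveI : NeZero p := ⟨hp.out.ne_zero⟩
  unfold galExp
  rw [ZMod.natCast_val, ZMod.cast_id]

theorem galExp_mul (σ τ : K ≃ₐ[ℚ] K) :
    (galExp p K (σ * τ) : ZMod p) = (galExp p K σ : ZMod p) * (galExp p K τ : ZMod p) := by
  rw [galExp_cast, galExp_cast, galExp_cast, map_mul, Units.val_mul]

theorem galExp_one : (galExp p K (1 : K ≃ₐ[ℚ] K) : ZMod p) = 1 := by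
  rw [galExp_cast, map_one, Units.val_one]

theorem galExp_inv_mul (σ : K ≃ₐ[ℚ] K) :
    (galExp p K σ⁻¹ : ZMod p) * (galExp p K σ : ZMod p) = 1 := by
  rw [← galExp_mul, inv_mul_cancel, galExp_one]

theorem galExp_ne_zero (σ : K ≃ₐ[ℚ] K) : (galExp p K σ : ZMod p) ≠ 0 := by
  intro h
  have := galExp_inv_mul p K σ
  rw [h, mul_zero] at this
  exact zero_ne_one this

theorem eq_one_of_galExp_cast_eq_one (σ : K ≃ₐ[ℚ] K) (h : (galExp p K σ : ZMod p) = 1) :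
    σ = 1 := by
  haveI : NeZero p := ⟨hp.out.ne_zero⟩
  rw [galExp_cast] at h
  have h1 : JacobiSumStickelberger.cycloGalEquiv p K σ = 1 := Units.ext h
  exact (MulEquiv.map_eq_one_iff _).mp h1

/-- `ζ` as a unit-like element: `ζ * ζ^(p-1) = 1`. -/
theorem zetaInt_pow_p : zetaInt p K ^ p = 1 := by
  haveI : NeZero p := ⟨hp.out.ne_zero⟩
  apply RingOfIntegers.ext
  show algebraMap (𝓞 K) K (zetaInt p K ^ p) = algebraMap (𝓞 K) K 1
  rw [map_pow, map_one]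
  unfold zetaInt
  have h1 : algebraMap (𝓞 K) K (IsCyclotomicExtension.zeta_spec p ℚ K).toInteger =
      IsCyclotomicExtension.zeta p ℚ K :=
    IsPrimitiveRoot.coe_toInteger (IsCyclotomicExtension.zeta_spec p ℚ K)
  rw [h1]
  exact (IsCyclotomicExtension.zeta_spec p ℚ K).pow_eq_one

theorem zetaInt_isPrimitiveRoot : IsPrimitiveRoot (zetaInt p K) p := by
  haveI : NeZero p := ⟨hp.out.ne_zero⟩
  unfold zetaInt
  exact (IsCyclotomicExtension.zeta_spec p ℚ K).toInteger_isPrimitiveRoot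

/-- For `1 ≤ c < p`, `ζ^c - 1` divides `p`. -/
theorem zetaInt_pow_sub_one_dvd (c : ℕ) (hc : ¬ p ∣ c) :
    zetaInt p K ^ c - 1 ∣ (p : 𝓞 K) := by
  haveI : NeZero p := ⟨hp.out.ne_zero⟩
  have hcop : c.Coprime p := (Nat.Coprime.symm ((Nat.Prime.coprime_iff_not_dvd hp.out).mpr hc))
  have hprim : IsPrimitiveRoot ((IsCyclotomicExtension.zeta p ℚ K) ^ c) p :=
    (IsCyclotomicExtension.zeta_spec p ℚ K).pow_of_coprime c hcop
  have h := hprim.toInteger_sub_one_dvd_prime'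
  have h2 : hprim.toInteger = zetaInt p K ^ c := by
    apply RingOfIntegers.ext
    show algebraMap (𝓞 K) K hprim.toInteger = algebraMap (𝓞 K) K (zetaInt p K ^ c)
    rw [map_pow]
    unfold zetaInt
    have h1 : algebraMap (𝓞 K) K (IsCyclotomicExtension.zeta_spec p ℚ K).toInteger =
        IsCyclotomicExtension.zeta p ℚ K :=
      IsPrimitiveRoot.coe_toInteger (IsCyclotomicExtension.zeta_spec p ℚ K)
    rw [h1]
    exact IsPrimitiveRoot.coe_toInteger hprim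
  rwa [h2] at h

/-- If `Q` is a proper ideal containing a rational prime `ℓ ≠ p`, then `ζ^c - 1 ∉ Q`. -/
theorem zetaInt_pow_sub_one_notMem (Q : Ideal (𝓞 K)) (hQ : Q ≠ ⊤) (ℓ : ℕ) (hℓ : ℓ.Prime)
    (hℓp : ℓ ≠ p) (hℓQ : (ℓ : 𝓞 K) ∈ Q) (c : ℕ) (hc : ¬ p ∣ c) :
    zetaInt p K ^ c - 1 ∉ Q := by
  intro hmem
  have hpQ : (p : 𝓞 K) ∈ Q := Ideal.mem_of_dvd Q (zetaInt_pow_sub_one_dvd p K c hc) hmem
  have hcop : Nat.Coprime p ℓ := (Nat.coprime_primes hp.out hℓ).mpr (Ne.symm hℓp)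
  have hbez : IsCoprime (p : ℤ) (ℓ : ℤ) := Nat.isCoprime_iff_coprime.mpr hcop
  obtain ⟨a, b, hab⟩ := hbez
  apply hQ
  rw [Ideal.eq_top_iff_one]
  have : (1 : 𝓞 K) = (a : 𝓞 K) * (p : 𝓞 K) + (b : 𝓞 K) * (ℓ : 𝓞 K) := by
    have := congrArg (fun z : ℤ => (z : 𝓞 K)) hab
    simp only [Int.cast_add, Int.cast_mul, Int.cast_natCast, Int.cast_one] at this
    exact this.symm
  rw [this]
  exact Q.add_mem (Q.mul_mem_left _ hpQ) (Q.mul_mem_left _ hℓQ)

/-- The conjugates `σ Q` of a degree-one prime `Q` of norm `ℓ ≠ p` are pairwise distinct. -/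
theorem map_ringAut_injective (Q : Ideal (𝓞 K)) [hQ : Q.IsPrime] (ℓ : ℕ) (hℓ : ℓ.Prime)
    (hℓp : ℓ ≠ p) (hnorm : Ideal.absNorm Q = ℓ) (σ τ : K ≃ₐ[ℚ] K)
    (h : Q.map (ringAut K σ : 𝓞 K →+* 𝓞 K) = Q.map (ringAut K τ : 𝓞 K →+* 𝓞 K)) : σ = τ := by
  have hℓQ : (ℓ : 𝓞 K) ∈ Q := hnorm ▸ Ideal.absNorm_mem Q
  -- ρ = τ⁻¹ σ stabilises Q
  have hstab : ∀ x ∈ Q, ringAut K (τ⁻¹ * σ) x ∈ Q := by
    intro x hx
    have h1 : ringAut K σ x ∈ Q.map (ringAut K σ : 𝓞 K →+* 𝓞 K) :=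
      Ideal.mem_map_of_mem (ringAut K σ : 𝓞 K →+* 𝓞 K) hx
    rw [h, mem_map_ringAut_iff] at h1
    rwa [ringAut_mul]
  set ρ := τ⁻¹ * σ with hρ
  -- ζ ≡ n mod Q
  obtain ⟨n, hn⟩ := exists_int_sub_mem Q (hnorm ▸ hℓ) (zetaInt p K)
  have h2 := hstab _ hn
  rw [map_sub, map_intCast, galExp_spec] at h2
  have h3 : zetaInt p K ^ galExp p K ρ - zetaInt p K ∈ Q := by
    have := Q.sub_mem h2 hn
    simpa using this
  -- galExp ρ = 1 in ZMod p
  have hone : (galExp p K ρ : ZMod p) = 1 := by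
    by_contra hne
    have hpos : 0 < galExp p K ρ := by
      rcases Nat.eq_zero_or_pos (galExp p K ρ) with h0 | h0
      · exfalso
        apply galExp_ne_zero p K ρ
        rw [h0]; simp
      · exact h0
    have hnd : ¬ p ∣ (galExp p K ρ - 1) := by
      intro hd
      apply hne
      have : ((galExp p K ρ - 1 : ℕ) : ZMod p) = 0 := (ZMod.natCast_eq_zero_iff _ _).mpr hd
      rw [Nat.cast_sub hpos, Nat.cast_one, sub_eq_zero] at this
      exact this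
    have h4 : zetaInt p K * (zetaInt p K ^ (galExp p K ρ - 1) - 1) ∈ Q := by
      have : zetaInt p K * (zetaInt p K ^ (galExp p K ρ - 1) - 1) =
          zetaInt p K ^ galExp p K ρ - zetaInt p K := by
        rw [mul_sub, mul_one, ← pow_succ', Nat.sub_add_cancel hpos]
      rw [this]; exact h3
    rcases hQ.mem_or_mem h4 with h5 | h5
    · have : (1 : 𝓞 K) ∈ Q := by
        have h6 := Q.mul_mem_left (zetaInt p K ^ (p - 1)) h5
        rwa [← pow_succ, Nat.sub_add_cancel hp.out.one_le, zetaInt_pow_p] at h6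
      exact hQ.ne_top ((Ideal.eq_top_iff_one Q).mpr this)
    · exact zetaInt_pow_sub_one_notMem p K Q hQ.ne_top ℓ hℓ hℓp hℓQ _ hnd h5
  have hρ1 : ρ = 1 := eq_one_of_galExp_cast_eq_one p K ρ hone
  rw [hρ, inv_mul_eq_one] at hρ1
  exact hρ1.symm

end cyclo

end Fermat.Agent.S14.H71
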