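import Mathlib

/-!
# S14 / Thaine block, helper71: the `ω²`-type relation for `δ`, read modulo `p`-th powers in
the unit group of a field containing a primitive `p`-th root of unity, and the resulting
congruence between exponents.
-/

set_option autoImplicit false

namespace Fermat.Agent.S14.H71

section group

/-- In a group, `x ^ a = x ^ b` when `a ≡ b [MOD n]` and `x ^ n = 1`. -/
lemma pow_eq_pow_of_modEq_of_pow_eq_one' {G : Type*} [Group G] (x : G) {n a b : ℕ}
    (hx : x ^ n = 1) (hab : a ≡ b [MOD n]) : x ^ a = x ^ b := by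
  have h1 : ∀ m : ℕ, x ^ m = x ^ (m % n) := fun m => by
    conv_lhs => rw [← Nat.div_add_mod m n, pow_add, pow_mul, hx, one_pow, one_mul]
  rw [h1 a, h1 b, hab]

/-- The abstract exponent comparison. -/
theorem exponent_congr {H : Type*} [CommGroup H] (p : ℕ) [hp : Fact p.Prime]
    (hH : ∀ x : H, x ^ p = 1) (D T : H) (hD : D ≠ 1) (c₁ : ℕ) (h1 : D * T ^ c₁ = 1) :
    ¬ p ∣ c₁ ∧ ∀ (e cσ : ℕ), D ^ e * T ^ cσ = 1 → cσ ≡ e * c₁ [MOD p] := by
  have hT : T ≠ 1 := by
    rintro rfl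
    rw [one_pow, mul_one] at h1
    exact hD h1
  have hord : orderOf T = p := orderOf_eq_prime (hH T) hT
  have hDT : D = (T ^ c₁)⁻¹ := eq_inv_of_mul_eq_one_left h1
  refine ⟨?_, ?_⟩
  · rintro ⟨k, rfl⟩
    rw [pow_mul, hH, one_pow, mul_one] at h1
    exact hD h1
  · intro e cσ h
    rw [hDT, inv_pow, ← pow_mul, inv_mul_eq_one] at h
    have h2 : T ^ (c₁ * e) = T ^ cσ := h
    have h3 := (pow_eq_pow_iff_modEq).mp h2
    rw [hord] at h3
    rw [mul_comm e c₁]
    exact h3.symm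

end group

section field

variable {F : Type*} [Field F] (p : ℕ) [hp : Fact p.Prime] (ω : F)

/-- The unit `x - 1` (junk value `1` if it vanishes). -/
noncomputable def unitSubOne (x : F) : Fˣ :=
  open Classical in if h : x - 1 ≠ 0 then Units.mk0 _ h else 1

/-- The unit `ω ^ c - 1` (junk value `1` if it vanishes). -/
noncomputable def uu (c : ℕ) : Fˣ := unitSubOne (ω ^ c)

variable {p ω}

omit hp in
lemma uu_val (hω : IsPrimitiveRoot ω p) (c : ℕ) (hc : ¬ p ∣ c) :
    ((uu ω c : Fˣ) : F) = ω ^ c - 1 := by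
  have h : ω ^ c - 1 ≠ 0 := by
    intro h0
    rw [sub_eq_zero] at h0
    exact hc ((hω.pow_eq_one_iff_dvd c).mp h0)
  unfold uu unitSubOne
  rw [dif_pos h]
  rfl

lemma uu_mod (hω : IsPrimitiveRoot ω p) (c : ℕ) : uu ω (c % p) = uu ω c := by
  have : ω ^ (c % p) = ω ^ c := by
    conv_rhs => rw [← Nat.div_add_mod c p, pow_add, pow_mul, hω.pow_eq_one, one_pow, one_mul]
  unfold uu
  rw [this]

variable (p) in
/-- The subgroup of `p`-th powers of `Fˣ`. -/
def ppow (F : Type*) [Field F] : Subgroup Fˣ := (powMonoidHom p : Fˣ →* Fˣ).range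

omit hp in
lemma mk_pow_p (x : Fˣ ⧸ ppow p F) : x ^ p = 1 := by
  obtain ⟨y, rfl⟩ := QuotientGroup.mk'_surjective (ppow p F) x
  rw [← map_pow]
  exact (QuotientGroup.eq_one_iff _).mpr ⟨y, rfl⟩

/-- The `ω²`-type relation, in `Fˣ` modulo `p`-th powers. -/
theorem type_rel (hω : IsPrimitiveRoot ω p) (h3 : 3 ≤ p) (a a' : ℕ)
    (ha : (a' : ZMod p) * (a : ZMod p) = 1) :
    QuotientGroup.mk' (ppow p F)
        (∏ b ∈ Finset.Icc 1 (p - 1), uu ω (a * b) ^ (b ^ (p - 3))) =
      QuotientGroup.mk' (ppow p F)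
        (∏ c ∈ Finset.Icc 1 (p - 1), uu ω c ^ (c ^ (p - 3))) ^ (a ^ 2) := by
  have hp1 : 1 < p := hp.out.one_lt
  have ha0 : (a : ZMod p) ≠ 0 := by
    intro h; rw [h, mul_zero] at ha; exact zero_ne_one ha
  have ha'0 : (a' : ZMod p) ≠ 0 := by
    intro h; rw [h, zero_mul] at ha; exact zero_ne_one ha
  have hmemIcc : ∀ (x y : ℕ), (x : ZMod p) ≠ 0 → y ∈ Finset.Icc 1 (p - 1) →
      (x * y) % p ∈ Finset.Icc 1 (p - 1) := by
    intro x y hx hy
    rw [Finset.mem_Icc] at hy ⊢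
    have hy0 : (y : ZMod p) ≠ 0 := by
      intro h
      rw [ZMod.natCast_eq_zero_iff] at h
      have := Nat.le_of_dvd (by omega) h
      omega
    have hxy : ((x * y : ℕ) : ZMod p) ≠ 0 := by
      rw [Nat.cast_mul]; exact mul_ne_zero hx hy0
    have hlt : (x * y) % p < p := Nat.mod_lt _ (by omega)
    have hne : (x * y) % p ≠ 0 := by
      intro h
      apply hxy
      rw [ZMod.natCast_eq_zero_iff]
      exact Nat.dvd_of_mod_eq_zero h
    omega
  have hinv : ∀ (x x' y : ℕ), (x' : ZMod p) * (x : ZMod p) = 1 → y ∈ Finset.Icc 1 (p - 1) →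
      (x' * ((x * y) % p)) % p = y := by
    intro x x' y hx hy
    rw [Finset.mem_Icc] at hy
    have h1 : (((x' * ((x * y) % p)) % p : ℕ) : ZMod p) = (y : ZMod p) := by
      rw [ZMod.natCast_mod, Nat.cast_mul, ZMod.natCast_mod, Nat.cast_mul, ← mul_assoc, hx, one_mul]
    have h2 := (ZMod.natCast_eq_natCast_iff _ _ _).mp h1
    have h3 : (x' * ((x * y) % p)) % p < p := Nat.mod_lt _ (by omega)
    have h4 : y < p := by omega
    have := Nat.ModEq.eq_of_lt_of_lt h2 h3 h4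
    exact this
  rw [map_prod, map_prod, ← Finset.prod_pow]
  have ha'a : (a : ZMod p) * (a' : ZMod p) = 1 := by rw [mul_comm]; exact ha
  refine Finset.prod_nbij' (fun b => (a * b) % p) (fun c => (a' * c) % p)
    (fun b hb => hmemIcc a b ha0 hb) (fun c hc => hmemIcc a' c ha'0 hc)
    (fun b hb => hinv a a' b ha hb) (fun c hc => hinv a' a c ha'a hc) ?_
  intro b hb
  rw [map_pow, map_pow, ← pow_mul, uu_mod hω]
  refine pow_eq_pow_of_modEq_of_pow_eq_one' _ (mk_pow_p _) ?_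
  rw [← ZMod.natCast_eq_natCast_iff]
  push_cast
  rw [ZMod.natCast_mod, Nat.cast_mul]
  -- b^(p-3) = (a b)^(p-3) * a^2 in ZMod p
  have hfl : (a : ZMod p) ^ (p - 1) = 1 := ZMod.pow_card_sub_one_eq_one ha0
  have : (a : ZMod p) ^ (p - 3) * (a : ZMod p) ^ 2 = 1 := by
    rw [← pow_add]
    have : p - 3 + 2 = p - 1 := by omega
    rw [this, hfl]
  rw [mul_pow, mul_assoc, mul_comm ((b : ZMod p) ^ (p - 3)), ← mul_assoc, this, one_mul]

end field

end Fermat.Agent.S14.H71
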