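import Fermat.Agent.S14.Spec
import Fermat.Agent.S14.H71.GalExp
import Fermat.Agent.S14.H71.TypeRel

/-!
# S14 / Thaine block, helper71 (I7): from the local congruences
`δ * g₀ ^ (c σ) ≡ 1 mod σ Q` (all `σ`) and `δ` not a `p`-th power mod `Q`, deduce
`p ∤ c 1` and `c σ ≡ a_σ ^ (p-3) * c 1 mod p`.
-/

set_option autoImplicit false

open NumberField
open scoped nonZeroDivisors Pointwise

namespace Fermat.Agent.S14.H71

open Fermat.Agent.S14.Spec

section cyclo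

variable (p : ℕ) [hp : Fact p.Prime]
variable (K : Type) [Field K] [NumberField K] [IsCyclotomicExtension {p} ℚ K]

theorem ringAut_delta (ρ : K ≃ₐ[ℚ] K) :
    ringAut K ρ (delta p K) =
      ∏ b ∈ Finset.Icc 1 (p - 1), (zetaInt p K ^ (galExp p K ρ * b) - 1) ^ (b ^ (p - 3)) := by
  unfold delta
  rw [map_prod]
  refine Finset.prod_congr rfl fun b _ => ?_
  rw [map_pow, map_sub, map_pow, map_one, galExp_spec, ← pow_mul]

theorem delta_congr (h5 : 5 ≤ p) (Q : Ideal (𝓞 K)) [hQ : Q.IsPrime] (hQ0 : Q ≠ ⊥)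
    (ℓ : ℕ) (hℓ : ℓ.Prime) (hℓp : ℓ ≠ p) (hℓQ : (ℓ : 𝓞 K) ∈ Q)
    (hgood : ¬ ∃ x : 𝓞 K, x ^ p - delta p K ∈ Q)
    (g₀ : ℤ) (c : (K ≃ₐ[ℚ] K) → ℕ)
    (H : ∀ σ : K ≃ₐ[ℚ] K,
      delta p K * (g₀ : 𝓞 K) ^ c σ - 1 ∈ Q.map (ringAut K σ : 𝓞 K →+* 𝓞 K)) :
    ¬ p ∣ c 1 ∧ ∀ σ : K ≃ₐ[ℚ] K, c σ ≡ galExp p K σ ^ (p - 3) * c 1 [MOD p] := by
  haveI hmax : Q.IsMaximal := hQ.isMaximal hQ0
  letI := Ideal.Quotient.field Q
  set φ : 𝓞 K →+* (𝓞 K ⧸ Q) := Ideal.Quotient.mk Q with hφ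
  have hφ0 : ∀ x : 𝓞 K, φ x = 0 ↔ x ∈ Q := fun x => Ideal.Quotient.eq_zero_iff_mem
  set ω : 𝓞 K ⧸ Q := φ (zetaInt p K) with hωdef
  have hωp : ω ^ p = 1 := by rw [hωdef, ← map_pow, zetaInt_pow_p, map_one]
  have hω1 : ω ≠ 1 := by
    intro h
    have : φ (zetaInt p K ^ 1 - 1) = 0 := by rw [pow_one, map_sub, map_one, ← hωdef, h, sub_self]
    rw [hφ0] at this
    exact zetaInt_pow_sub_one_notMem p K Q hQ.ne_top ℓ hℓ hℓp hℓQ 1
      (fun hd => by have := Nat.le_of_dvd one_pos hd; omega) this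
  have hω : IsPrimitiveRoot ω p := by
    have := IsPrimitiveRoot.orderOf ω
    rwa [orderOf_eq_prime hωp hω1] at this
  have hIcc : ∀ b ∈ Finset.Icc 1 (p - 1), ¬ p ∣ b := by
    intro b hb hd
    rw [Finset.mem_Icc] at hb
    have := Nat.le_of_dvd (by omega) hd
    omega
  have hgal : ∀ ρ : K ≃ₐ[ℚ] K, ¬ p ∣ galExp p K ρ := by
    intro ρ hd
    exact galExp_ne_zero p K ρ ((ZMod.natCast_eq_zero_iff _ _).mpr hd)
  -- the units
  set D : (𝓞 K ⧸ Q)ˣ := ∏ b ∈ Finset.Icc 1 (p - 1), uu ω b ^ (b ^ (p - 3)) with hD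
  have hDval : ((D : (𝓞 K ⧸ Q)ˣ) : 𝓞 K ⧸ Q) = φ (delta p K) := by
    rw [hD, Units.coe_prod]
    unfold delta
    rw [map_prod]
    refine Finset.prod_congr rfl fun b hb => ?_
    rw [Units.val_pow_eq_pow_val, uu_val hω b (hIcc b hb), map_pow, map_sub, map_pow, map_one]
  have hDρval : ∀ ρ : K ≃ₐ[ℚ] K,
      ((∏ b ∈ Finset.Icc 1 (p - 1), uu ω (galExp p K ρ * b) ^ (b ^ (p - 3)) :
        (𝓞 K ⧸ Q)ˣ) : 𝓞 K ⧸ Q) = φ (ringAut K ρ (delta p K)) := by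
    intro ρ
    rw [ringAut_delta, Units.coe_prod, map_prod]
    refine Finset.prod_congr rfl fun b hb => ?_
    have hnd : ¬ p ∣ galExp p K ρ * b := by
      intro hd
      rcases (Nat.Prime.dvd_mul hp.out).mp hd with h | h
      · exact hgal ρ h
      · exact hIcc b hb h
    rw [Units.val_pow_eq_pow_val, uu_val hω _ hnd, map_pow, map_sub, map_pow, map_one]
  -- σ = 1
  have H1 : φ (delta p K) * φ (g₀ : 𝓞 K) ^ c 1 = 1 := by
    have h := H 1
    rw [mem_map_ringAut_iff, inv_one, ringAut_one, ← hφ0, map_sub, map_mul, map_pow, map_one,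
      sub_eq_zero] at h
    exact h
  have hnotpow : ∀ y : 𝓞 K ⧸ Q, y ^ p ≠ φ (delta p K) := by
    intro y hy
    obtain ⟨x, rfl⟩ := Ideal.Quotient.mk_surjective y
    apply hgood
    refine ⟨x, ?_⟩
    rw [← hφ0, map_sub, map_pow, sub_eq_zero]
    exact hy
  have hc1 : c 1 ≠ 0 := by
    intro h0
    rw [h0, pow_zero, mul_one] at H1
    exact hnotpow 1 (by rw [one_pow, H1])
  have hg0 : φ (g₀ : 𝓞 K) ≠ 0 := by
    intro h0
    rw [h0, zero_pow hc1, mul_zero] at H1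
    exact zero_ne_one H1
  set T : (𝓞 K ⧸ Q)ˣ := Units.mk0 _ hg0 with hT
  let q := QuotientGroup.mk' (ppow p (𝓞 K ⧸ Q))
  have hqD : q D ≠ 1 := by
    intro h
    obtain ⟨Y, hY⟩ := (QuotientGroup.eq_one_iff _).mp h
    apply hnotpow (Y : 𝓞 K ⧸ Q)
    rw [← hDval, ← hY]
    simp [powMonoidHom]
  have hq1 : q D * q T ^ c 1 = 1 := by
    rw [← map_pow, ← map_mul]
    have : D * T ^ c 1 = 1 := by
      apply Units.ext
      rw [Units.val_mul, Units.val_pow_eq_pow_val, hDval, hT, Units.val_mk0]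
      exact H1
    rw [this, map_one]
  obtain ⟨hnd, hcongr⟩ := exponent_congr p (fun x => mk_pow_p x) (q D) (q T) hqD (c 1) hq1
  refine ⟨hnd, fun σ => ?_⟩
  -- the relation at σ, pulled back by ρ = σ⁻¹
  have hσ : φ (ringAut K σ⁻¹ (delta p K)) * φ (g₀ : 𝓞 K) ^ c σ = 1 := by
    have h := H σ
    rw [mem_map_ringAut_iff, ← hφ0, map_sub, map_mul, map_pow, map_intCast, map_sub, map_mul,
      map_pow, map_one, sub_eq_zero] at h
    simpa using h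
  have hqσ : q D ^ (galExp p K σ⁻¹ ^ 2) * q T ^ c σ = 1 := by
    have htr := type_rel (p := p) hω (by omega) (galExp p K σ⁻¹) (galExp p K σ)
      (by simpa using galExp_inv_mul p K σ⁻¹)
    rw [← hD] at htr
    rw [← htr, ← map_pow, ← map_mul]
    have : (∏ b ∈ Finset.Icc 1 (p - 1), uu ω (galExp p K σ⁻¹ * b) ^ (b ^ (p - 3))) * T ^ c σ
        = 1 := by
      apply Units.ext
      rw [Units.val_mul, Units.val_pow_eq_pow_val, hDρval, hT, Units.val_mk0]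
      exact hσ
    rw [this, map_one]
  have h2 := hcongr _ _ hqσ
  refine h2.trans ?_
  refine Nat.ModEq.mul_right _ ?_
  rw [← ZMod.natCast_eq_natCast_iff]
  push_cast
  -- (a_{σ⁻¹})² = a_σ^(p-3) in ZMod p
  have hinv := galExp_inv_mul p K σ
  have ha0 := galExp_ne_zero p K σ
  have hfl : (galExp p K σ : ZMod p) ^ (p - 1) = 1 := ZMod.pow_card_sub_one_eq_one ha0
  have h3 : (galExp p K σ : ZMod p) ^ (p - 3) * (galExp p K σ : ZMod p) ^ 2 = 1 := by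
    rw [← pow_add]
    have : p - 3 + 2 = p - 1 := by omega
    rw [this, hfl]
  have h4 : (galExp p K σ⁻¹ : ZMod p) ^ 2 * (galExp p K σ : ZMod p) ^ 2 = 1 := by
    rw [← mul_pow, hinv, one_pow]
  have hunit : (galExp p K σ : ZMod p) ^ 2 ≠ 0 := pow_ne_zero _ ha0
  exact mul_right_cancel₀ hunit (h4.trans h3.symm)

end cyclo

end Fermat.Agent.S14.H71
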