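import Mathlib

/-!
# S14 / Thaine block, helper71: the class of an ideal and the class-group form of the
prime factorisation of a principal ideal.
-/

set_option autoImplicit false

open UniqueFactorizationMonoid
open scoped nonZeroDivisors

namespace Fermat.Agent.S14.H71

section cls

variable {R : Type*} [CommRing R] [IsDedekindDomain R]

/-- The class of an ideal (`1` for the zero ideal). -/
noncomputable def cls (I : Ideal R) : ClassGroup R :=
  open Classical in if h : I ∈ (Ideal R)⁰ then ClassGroup.mk0 ⟨I, h⟩ else 1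

lemma cls_of_mem {I : Ideal R} (h : I ∈ (Ideal R)⁰) : cls I = ClassGroup.mk0 ⟨I, h⟩ := by
  unfold cls; rw [dif_pos h]

lemma cls_coe (I : (Ideal R)⁰) : cls (I : Ideal R) = ClassGroup.mk0 I :=
  cls_of_mem I.2

lemma mem_nzd_of_ne_bot {I : Ideal R} (h : I ≠ ⊥) : I ∈ (Ideal R)⁰ :=
  mem_nonZeroDivisors_iff_ne_zero.mpr h

lemma cls_mul {I J : Ideal R} (hI : I ≠ ⊥) (hJ : J ≠ ⊥) : cls (I * J) = cls I * cls J := by
  have hI' := mem_nzd_of_ne_bot hI
  have hJ' := mem_nzd_of_ne_bot hJ
  have hIJ : I * J ∈ (Ideal R)⁰ := mul_mem hI' hJ'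
  rw [cls_of_mem hI', cls_of_mem hJ', cls_of_mem hIJ, ← map_mul]
  rfl

lemma cls_one : cls (1 : Ideal R) = 1 := by
  have h1 : (1 : Ideal R) ∈ (Ideal R)⁰ := one_mem _
  rw [cls_of_mem h1]
  exact map_one ClassGroup.mk0

lemma cls_multiset_prod (S : Multiset (Ideal R)) (h : ∀ I ∈ S, I ≠ ⊥) :
    cls S.prod = (S.map cls).prod := by
  induction S using Multiset.induction_on with
  | empty => simpa using cls_one (R := R)
  | cons a s ih =>
    have ha : a ≠ ⊥ := h a (Multiset.mem_cons_self a s)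
    have hs : ∀ I ∈ s, I ≠ ⊥ := fun I hI => h I (Multiset.mem_cons_of_mem hI)
    have hsp : s.prod ≠ ⊥ := by
      intro h0
      rw [← Ideal.zero_eq_bot, Multiset.prod_eq_zero_iff] at h0
      exact hs _ h0 rfl
    rw [Multiset.prod_cons, Multiset.map_cons, Multiset.prod_cons, cls_mul ha hsp, ih hs]

lemma cls_span_singleton {x : R} (hx : x ≠ 0) : cls (Ideal.span {x}) = 1 := by
  have h : Ideal.span {x} ∈ (Ideal R)⁰ :=
    mem_nzd_of_ne_bot (by simpa [Ideal.span_singleton_eq_bot] using hx)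
  rw [cls_of_mem h, ClassGroup.mk0_eq_one_iff]
  exact ⟨⟨x, rfl⟩⟩

lemma cls_pow {I : Ideal R} (hI : I ≠ ⊥) (n : ℕ) : cls (I ^ n) = cls I ^ n := by
  induction n with
  | zero => simpa using cls_one (R := R)
  | succ n ih => rw [pow_succ, pow_succ, cls_mul (pow_ne_zero n hI) hI, ih]

open Classical in
/-- The prime factorisation of a nonzero principal ideal, read in the class group. -/
lemma prod_cls_pow_count {x : R} (hx : x ≠ 0) :
    ∏ 𝔮 ∈ (normalizedFactors (Ideal.span {x})).toFinset,
      cls 𝔮 ^ Multiset.count 𝔮 (normalizedFactors (Ideal.span {x})) = 1 := by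
  have hne : Ideal.span {x} ≠ ⊥ := by simpa [Ideal.span_singleton_eq_bot] using hx
  rw [← Finset.prod_multiset_map_count, ← cls_multiset_prod, Ideal.prod_normalizedFactors_eq_self hne,
    cls_span_singleton hx]
  intro I hI
  exact (prime_of_normalized_factor I hI).ne_zero

end cls

end Fermat.Agent.S14.H71
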