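import Fermat.Agent.S14.Spec
import Fermat.Agent.S14.H71.Cls

/-!
# S14 / Thaine block, helper71: class-group glue (I8)

From an element `γ ≠ 0` of `𝓞 K` whose prime factorisation has exponents divisible by `p` away
from `ℓ` and exponents `≡ a_σ^(p-3) * r` at the conjugates `σ Q` of a prime `Q` above `ℓ`
(`p ∤ r`), deduce `θ [Q] ∈ Cl^p`.
-/

set_option autoImplicit false

open NumberField UniqueFactorizationMonoid
open scoped nonZeroDivisors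

namespace Fermat.Agent.S14.H71

open Fermat.Agent.S14.Spec

section

variable (p : ℕ) [hp : Fact p.Prime]
variable (K : Type) [Field K] [NumberField K] [IsCyclotomicExtension {p} ℚ K]

lemma clAct_mk0 (σ : K ≃ₐ[ℚ] K) (Q : (Ideal (𝓞 K))⁰) :
    clAct K σ (ClassGroup.mk0 Q) = cls ((Q : Ideal (𝓞 K)).map (ringAut K σ : 𝓞 K →+* 𝓞 K)) := by
  unfold clAct
  rw [ClassGroup.mulEquiv_mk0, ← cls_coe]
  rfl

lemma pow_eq_pow_of_modEq_of_pow_eq_one {G : Type*} [Group G] (x : G) {n a b : ℕ}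
    (hx : x ^ n = 1) (hab : a ≡ b [MOD n]) : x ^ a = x ^ b := by
  have h1 : ∀ m : ℕ, x ^ m = x ^ (m % n) := fun m => by
    conv_lhs => rw [← Nat.div_add_mod m n, pow_add, pow_mul, hx, one_pow, one_mul]
  rw [h1 a, h1 b, hab]

open Classical in
theorem thaine_glue (Q : (Ideal (𝓞 K))⁰) (ℓ : ℕ)
    (hℓQ : ∀ σ : K ≃ₐ[ℚ] K, (ℓ : 𝓞 K) ∈ (Q : Ideal (𝓞 K)).map (ringAut K σ : 𝓞 K →+* 𝓞 K))
    (hinj : ∀ σ τ : K ≃ₐ[ℚ] K,
      (Q : Ideal (𝓞 K)).map (ringAut K σ : 𝓞 K →+* 𝓞 K) =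
        (Q : Ideal (𝓞 K)).map (ringAut K τ : 𝓞 K →+* 𝓞 K) → σ = τ)
    (htrans : ∀ 𝔮 : Ideal (𝓞 K), 𝔮.IsPrime → (ℓ : 𝓞 K) ∈ 𝔮 →
      ∃ σ : K ≃ₐ[ℚ] K, 𝔮 = (Q : Ideal (𝓞 K)).map (ringAut K σ : 𝓞 K →+* 𝓞 K))
    (γ : 𝓞 K) (hγ : γ ≠ 0) (r : ℕ) (hr : ¬ p ∣ r)
    (hA : ∀ 𝔮 : Ideal (𝓞 K), 𝔮.IsPrime → (ℓ : 𝓞 K) ∉ 𝔮 →
      p ∣ Multiset.count 𝔮 (normalizedFactors (Ideal.span {γ})))
    (hB : ∀ σ : K ≃ₐ[ℚ] K,
      Multiset.count ((Q : Ideal (𝓞 K)).map (ringAut K σ : 𝓞 K →+* 𝓞 K))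
        (normalizedFactors (Ideal.span {γ})) ≡ galExp p K σ ^ (p - 3) * r [MOD p]) :
    ∃ J : ClassGroup (𝓞 K), theta p K (ClassGroup.mk0 Q) = J ^ p := by
  set F := normalizedFactors (Ideal.span {γ}) with hF
  set Cp : Subgroup (ClassGroup (𝓞 K)) := (powMonoidHom p : ClassGroup (𝓞 K) →* _).range with hCp
  have hmem : ∀ x : ClassGroup (𝓞 K), x ^ p ∈ Cp := fun x => ⟨x, rfl⟩
  let π := QuotientGroup.mk' Cp
  have hπp : ∀ y : ClassGroup (𝓞 K) ⧸ Cp, y ^ p = 1 := by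
    intro y
    obtain ⟨x, rfl⟩ := QuotientGroup.mk'_surjective Cp y
    rw [← map_pow]
    exact (QuotientGroup.eq_one_iff _).mpr (hmem x)
  -- the factorisation in the class group
  have h1 : ∏ 𝔮 ∈ F.toFinset, cls 𝔮 ^ Multiset.count 𝔮 F = 1 := prod_cls_pow_count hγ
  have hprime : ∀ 𝔮 ∈ F.toFinset, 𝔮.IsPrime := fun 𝔮 h𝔮 =>
    Ideal.isPrime_of_prime (prime_of_normalized_factor 𝔮 (Multiset.mem_toFinset.mp h𝔮))
  -- apply π and split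
  have h2 : ∏ 𝔮 ∈ F.toFinset, π (cls 𝔮) ^ Multiset.count 𝔮 F = 1 := by
    have := congrArg π h1
    simpa [map_prod, map_pow] using this
  have h3 : ∏ 𝔮 ∈ F.toFinset.filter (fun 𝔮 => (ℓ : 𝓞 K) ∈ 𝔮),
      π (cls 𝔮) ^ Multiset.count 𝔮 F = 1 := by
    rw [← Finset.prod_filter_mul_prod_filter_not F.toFinset (fun 𝔮 => (ℓ : 𝓞 K) ∈ 𝔮)] at h2
    have h4 : ∏ 𝔮 ∈ F.toFinset.filter (fun 𝔮 => ¬ (ℓ : 𝓞 K) ∈ 𝔮),
        π (cls 𝔮) ^ Multiset.count 𝔮 F = 1 := by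
      refine Finset.prod_eq_one fun 𝔮 h𝔮 => ?_
      rw [Finset.mem_filter] at h𝔮
      obtain ⟨k, hk⟩ := hA 𝔮 (hprime 𝔮 h𝔮.1) h𝔮.2
      rw [hk, pow_mul, hπp, one_pow]
    rwa [h4, mul_one] at h2
  -- rewrite as a product over the Galois group
  have h5 : ∏ σ : K ≃ₐ[ℚ] K,
      π (cls ((Q : Ideal (𝓞 K)).map (ringAut K σ : 𝓞 K →+* 𝓞 K))) ^
        Multiset.count ((Q : Ideal (𝓞 K)).map (ringAut K σ : 𝓞 K →+* 𝓞 K)) F = 1 := by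
    rw [← h3]
    have himg : ∏ σ : K ≃ₐ[ℚ] K,
        π (cls ((Q : Ideal (𝓞 K)).map (ringAut K σ : 𝓞 K →+* 𝓞 K))) ^
          Multiset.count ((Q : Ideal (𝓞 K)).map (ringAut K σ : 𝓞 K →+* 𝓞 K)) F =
        ∏ 𝔮 ∈ (Finset.univ : Finset (K ≃ₐ[ℚ] K)).image
            (fun σ => (Q : Ideal (𝓞 K)).map (ringAut K σ : 𝓞 K →+* 𝓞 K)),
          π (cls 𝔮) ^ Multiset.count 𝔮 F := by
      rw [Finset.prod_image]
      intro σ _ τ _ h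
      exact hinj σ τ h
    rw [himg]
    symm
    refine Finset.prod_subset ?_ ?_
    · intro 𝔮 h𝔮
      rw [Finset.mem_filter] at h𝔮
      obtain ⟨σ, hσ⟩ := htrans 𝔮 (hprime 𝔮 h𝔮.1) h𝔮.2
      rw [Finset.mem_image]
      exact ⟨σ, Finset.mem_univ _, hσ.symm⟩
    · intro 𝔮 h𝔮 hn
      rw [Finset.mem_image] at h𝔮
      obtain ⟨σ, -, rfl⟩ := h𝔮
      have : (Q : Ideal (𝓞 K)).map (ringAut K σ : 𝓞 K →+* 𝓞 K) ∉ F.toFinset := by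
        intro hin
        exact hn (Finset.mem_filter.mpr ⟨hin, hℓQ σ⟩)
      rw [Multiset.mem_toFinset] at this
      rw [Multiset.count_eq_zero_of_notMem this, pow_zero]
  -- compare with θ^r
  have h6 : π (theta p K (ClassGroup.mk0 Q)) ^ r = 1 := by
    rw [← h5]
    unfold theta
    rw [map_prod, ← Finset.prod_pow]
    refine Finset.prod_congr rfl fun σ _ => ?_
    rw [map_pow, clAct_mk0, ← pow_mul]
    exact pow_eq_pow_of_modEq_of_pow_eq_one _ (hπp _) (hB σ).symm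
  have h7 : π (theta p K (ClassGroup.mk0 Q)) = 1 := by
    have hcop : Nat.gcd r p = 1 :=
      Nat.Coprime.symm ((Nat.Prime.coprime_iff_not_dvd hp.out).mpr hr)
    have := pow_gcd_eq_one.mpr ⟨h6, hπp (π (theta p K (ClassGroup.mk0 Q)))⟩
    rwa [hcop, pow_one] at this
  obtain ⟨J, hJ⟩ := (QuotientGroup.eq_one_iff _).mp h7
  exact ⟨J, hJ.symm⟩

end

end Fermat.Agent.S14.H71
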